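import Fermat.Agent.GenusRR.Lift
import Fermat.Prelude.Def_AlgebraicCurve_Repartitions

/-! # Linearly independent elements of `L(n (j)_∞)` coming from modular forms. -/

set_option autoImplicit false

open UpperHalfPlane ModularForm Complex Filter Topology Matrix.SpecialLinearGroup Finset
open ModularCurve AlgebraicCurve
open scoped MatrixGroups Manifold

namespace Fermat.Agent.GenusRR

noncomputable section

set_option linter.unusedSectionVars false

open Fermat.Agent.MFLib Fermat.Agent.ModPoly Fermat.Agent.JFun Fermat.Agent.Dim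

local notation "Δ" => ModularForm.discriminant

section rational

variable (N : ℕ) [NeZero N]

local notation "Γ₀" => CongruenceSubgroup.Gamma0 N

/-- coefficient functionals -/
def cf' (k : ℤ) (n : ℕ) : mf Γ₀ k →ₗ[ℂ] ℂ := (LinearMap.proj (Fin.last n)).comp (coeffMap N k n)

lemma cf'_apply (k : ℤ) (n : ℕ) (f : mf Γ₀ k) : cf' N k n f = (qe (f : ℍ → ℂ)).coeff n := rfl

theorem span_rational_mf (k : ℤ) :
    Submodule.span ℂ {f : mf Γ₀ k | ∀ n, ∃ r : ℚ, cf' N k n f = r} = ⊤ := by
  refine span_rational (cf' N k) ((k * (CongruenceSubgroup.Gamma0 N).index).toNat / 12) ?_ ?_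
  · intro f hf
    have h1 := coeffMap_injective N k
    rw [injective_iff_map_eq_zero] at h1
    apply h1
    ext n
    exact hf n (Nat.lt_succ_iff.mp n.2)
  · intro σ f
    obtain ⟨f', hf', hq⟩ := exists_conj_Gamma0 N σ f.2
    refine ⟨⟨f', hf'⟩, fun n => ?_⟩
    rw [cf'_apply, cf'_apply, hq, PowerSeries.coeff_map]

theorem exists_rational_basis (k : ℤ) :
    ∃ h : Fin (Module.finrank ℂ (mf Γ₀ k)) → ℍ → ℂ, (∀ i, IsMF Γ₀ k (h i) ∧ IsRat (qe (h i))) ∧
      LinearIndependent ℂ h := by
  classical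
  obtain ⟨b, hbS, hbspan, hbli⟩ := exists_linearIndependent ℂ
    {f : mf Γ₀ k | ∀ n, ∃ r : ℚ, cf' N k n f = r}
  rw [span_rational_mf] at hbspan
  let B : Module.Basis b ℂ (mf Γ₀ k) := Module.Basis.mk hbli (by
    rw [Subtype.range_coe, hbspan])
  have hfin : Finite b := Module.Finite.finite_basis B
  have hft : Fintype b := Fintype.ofFinite b
  have hcard : Module.finrank ℂ (mf Γ₀ k) = Fintype.card b := Module.finrank_eq_card_basis B
  let e : Fin (Module.finrank ℂ (mf Γ₀ k)) ≃ b := (finCongr hcard).trans (Fintype.equivFin b).symm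
  refine ⟨fun i => ((e i : mf Γ₀ k) : ℍ → ℂ), fun i => ⟨(e i : mf Γ₀ k).2, fun n => ?_⟩, ?_⟩
  · exact hbS (e i).2 n
  · have h1 : LinearIndependent ℂ (fun i => (e i : mf Γ₀ k)) := hbli.comp e e.injective
    exact h1.map' (Submodule.subtype _) (Submodule.ker_subtype _)

end rational

section place

variable {K F : Type*} [Field K] [Field F] [Algebra K F]

/-- estimate for elements satisfying a relation with bounded degrees. -/
lemma adic_le_of_relation (v : Place K F) {j y : F} {n μ : ℕ} (P : ℕ → Polynomial K)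
    (hP : ∀ k ∈ range μ, (P k).natDegree ≤ n * (μ - k))
    (h : y ^ μ + ∑ k ∈ range μ, y ^ k * Polynomial.aeval j (P k) = 0) :
    v.adicValuation y ≤ (max 1 (v.adicValuation j)) ^ n := by
  classical
  set w := v.adicValuation with hw
  set B : WithZero (Multiplicative ℤ) := max 1 (w j) with hB
  have hB1 : 1 ≤ B := le_max_left _ _
  by_contra hcon
  rw [not_le] at hcon
  have hy0 : w y ≠ 0 := (lt_of_le_of_lt zero_le hcon).ne'
  have hpoly : ∀ Q : Polynomial K, w (Polynomial.aeval j Q) ≤ B ^ Q.natDegree := by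
    intro Q
    rw [Polynomial.aeval_eq_sum_range]
    refine Valuation.map_sum_le w fun i hi => ?_
    rw [Algebra.smul_def, map_mul, map_pow]
    have h1 : w (algebraMap K F (Q.coeff i)) ≤ 1 := v.adicValuation_algebraMap_le_one _
    have h2 : (w j) ^ i ≤ B ^ i := pow_le_pow_left' (le_max_right _ _) i
    have h3 : B ^ i ≤ B ^ Q.natDegree :=
      pow_le_pow_right₀ hB1 (Nat.lt_succ_iff.mp (Finset.mem_range.mp hi))
    calc w (algebraMap K F (Q.coeff i)) * w j ^ i ≤ 1 * B ^ i := mul_le_mul' h1 h2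
      _ = B ^ i := one_mul _
      _ ≤ _ := h3
  have hlt : w (∑ k ∈ range μ, y ^ k * Polynomial.aeval j (P k)) < w y ^ μ := by
    refine Valuation.map_sum_lt w (pow_ne_zero _ hy0) fun k hk => ?_
    rw [map_mul, map_pow]
    have hk' := Finset.mem_range.mp hk
    have h1 : w (Polynomial.aeval j (P k)) ≤ B ^ (n * (μ - k)) :=
      (hpoly _).trans (pow_le_pow_right₀ hB1 (hP k hk))
    have h2 : B ^ (n * (μ - k)) < w y ^ (μ - k) := by
      rw [pow_mul]
      exact pow_lt_pow_left₀ hcon zero_le (by omega)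
    have h3 : w y ^ μ = w y ^ k * w y ^ (μ - k) := by
      rw [← pow_add]; congr 1; omega
    rw [h3]
    refine (mul_le_mul' le_rfl h1).trans_lt ?_
    exact mul_lt_mul_of_pos_left h2 (pow_pos (zero_lt_iff.mpr hy0) k)
  have h2 : w (y ^ μ) = w (∑ k ∈ range μ, y ^ k * Polynomial.aeval j (P k)) := by
    rw [eq_neg_of_add_eq_zero_left h, Valuation.map_neg]
  rw [map_pow] at h2
  rw [← h2] at hlt
  exact lt_irrefl _ hlt

end place

section family

variable (N : ℕ) [NeZero N]

local notation "Γ₀" => CongruenceSubgroup.Gamma0 N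

variable {K : Type*} [Field K] [Algebra ℚ K] [IsAlgClosed K] (ι : K →+* ℂ)

/-- `j` in the modular function field -/
def jK (K : Type*) [Field K] [Algebra ℚ K] (N : ℕ) : FK K N := X0Genus.jd K N 1 (one_dvd N)

lemma coeffMap_injective' {K : Type*} [Field K] (ι : K →+* ℂ) :
    Function.Injective (coeffMap ι) := (coeffMap ι).injective

lemma coeffMap_jK : coeffMap ι ((jK K N : FK K N) : LaurentSeries K) = jqModC ℂ := by
  change coeffMap ι (qExpand K 1 (jqModC K)) = _
  rw [coeffMap_qExpand, coeffMap_jqModC, qExpand_one_apply]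

/-- composite embedding -/
def emb : FK K N →+* LaurentSeries ℂ := (coeffMap ι).comp (algebraMap (FK K N) (LaurentSeries K))

lemma emb_injective : Function.Injective (emb N ι) := (emb N ι).injective

lemma emb_const (a : K) : emb N ι (algebraMap K (FK K N) a) = HahnSeries.C (ι a) := by
  change coeffMap ι (algebraMap K (LaurentSeries K) a) = _
  rw [algebraMap_laurentSeries_eq_single, coeffMap_single]
  rfl

lemma emb_aeval (P : Polynomial ℚ) :
    emb N ι (Polynomial.aeval (jK K N) (P.map (algebraMap ℚ K))) =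
      Polynomial.aeval (jqModC ℂ) (P.map (algebraMap ℚ ℂ)) := by
  rw [Polynomial.aeval_def, Polynomial.hom_eval₂, Polynomial.aeval_def, Polynomial.eval₂_map,
    Polynomial.eval₂_map]
  have h1 : emb N ι (jK K N) = jqModC ℂ := coeffMap_jK N ι
  rw [h1]
  congr 1
  ext r : 1
  simp only [RingHom.comp_apply]
  rw [emb_const, algebraMap_laurentSeries_eq_single]
  have : ι (algebraMap ℚ K r) = algebraMap ℚ ℂ r := by
    rw [← RingHom.comp_apply]
    congr 1
    exact Subsingleton.elim _ _
  rw [this]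
  rfl

/-- the element of the function field attached to a rational form -/
theorem exists_elt {n : ℕ} {f : ℍ → ℂ} (hf : IsMF Γ₀ (12 * n) f) (hr : IsRat (qe f)) :
    ∃ y : FK K N, emb N ι y = qL f * deltaInvC ℂ ^ n ∧
      ∀ v : Place K (FK K N), v.adicValuation y ≤ (max 1 (v.adicValuation (jK K N))) ^ n := by
  classical
  obtain ⟨y, hy⟩ := mem_SF.mp (form_mem_SF N ι hf hr)
  have hy' : emb N ι y = qL f * deltaInvC ℂ ^ n := hy
  refine ⟨y, hy', fun v => ?_⟩
  obtain ⟨C, hC1, hC2, hC3⟩ := relation_rat N hf hr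
  have hfq : QG f := hf.qg (MFLib.T_mem_Gamma0 N)
  have hex : ∀ k, ∃ P : Polynomial ℚ, k ∈ range (idx Γ₀) → P.natDegree ≤ n * (idx Γ₀ - k) ∧
      qL (C k) * deltaInvC ℂ ^ (n * (idx Γ₀ - k)) =
        Polynomial.aeval (jqModC ℂ) (P.map (algebraMap ℚ ℂ)) := by
    intro k
    by_cases hk : k ∈ range (idx Γ₀)
    · obtain ⟨h1, h2⟩ := hC1 k (Finset.mem_range.mpr (by
        have := Finset.mem_range.mp hk; omega))
      obtain ⟨P, hP1, hP2⟩ := level_one_poly h1 h2
      exact ⟨P, fun _ => ⟨hP1, hP2⟩⟩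
    · exact ⟨0, fun h => absurd h hk⟩
  choose P hP using hex
  refine adic_le_of_relation v (n := n) (μ := idx Γ₀) (fun k => (P k).map (algebraMap ℚ K)) ?_ ?_
  · intro k hk
    exact Polynomial.natDegree_map_le.trans (hP k hk).1
  · apply emb_injective N ι
    rw [map_zero, map_add, map_pow, map_sum, hy']
    have h1 : ∑ k ∈ range (idx Γ₀), emb N ι (y ^ k *
        Polynomial.aeval (jK K N) ((P k).map (algebraMap ℚ K))) =
        ∑ k ∈ range (idx Γ₀), (qL f * deltaInvC ℂ ^ n) ^ k *
          (qL (C k) * deltaInvC ℂ ^ (n * (idx Γ₀ - k))) := by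
      refine Finset.sum_congr rfl fun k hk => ?_
      rw [map_mul, map_pow, hy', emb_aeval, (hP k hk).2]
    rw [h1]
    have h2 : ∀ k ∈ range (idx Γ₀ + 1), QG (f ^ k * C k) := fun k hk =>
      (hfq.pow k).mul (hC1 k hk).1.qg_top
    have h3 := congrArg qL hC3
    rw [qL_sum h2, qL_zero] at h3
    have h4 : (∑ k ∈ range (idx Γ₀ + 1), qL (f ^ k * C k)) * deltaInvC ℂ ^ (n * idx Γ₀) =
        (qL f * deltaInvC ℂ ^ n) ^ idx Γ₀ + ∑ k ∈ range (idx Γ₀), (qL f * deltaInvC ℂ ^ n) ^ k *
          (qL (C k) * deltaInvC ℂ ^ (n * (idx Γ₀ - k))) := by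
      rw [Finset.sum_range_succ, add_comm, add_mul, Finset.sum_mul]
      congr 1
      · rw [hC2, mul_one, qL_pow hfq, mul_pow, pow_mul]
      · refine Finset.sum_congr rfl fun k hk => ?_
        have hk' := Finset.mem_range.mp hk
        rw [qL_mul (hfq.pow k) (hC1 k (Finset.mem_range.mpr (by omega))).1.qg_top, qL_pow hfq,
          mul_pow]
        have h5 : deltaInvC ℂ ^ (n * idx Γ₀) =
            (deltaInvC ℂ ^ n) ^ k * deltaInvC ℂ ^ (n * (idx Γ₀ - k)) := by
          rw [← pow_mul, ← pow_add]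
          congr 1
          rw [← mul_add]
          congr 1
          omega
        rw [h5]
        ring
    rw [← h4, h3, zero_mul]

include ι in
/-- Linearly independent elements of `L(n (j)_∞)`. -/
theorem exists_family {n : ℕ} (hn : 1 ≤ n) :
    ∃ (m : ℕ) (y : Fin m → FK K N), (m : ℚ) = n * dedekindPsi N + 1 - genusFormula N ∧
      LinearIndependent K y ∧ ∀ i, ∀ v : Place K (FK K N),
        v.adicValuation (y i) ≤ (max 1 (v.adicValuation (jK K N))) ^ n := by
  classical
  obtain ⟨h, hh1, hh2⟩ := exists_rational_basis N (12 * n)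
  choose y hy1 hy2 using fun i => exists_elt N ι (hh1 i).1 (hh1 i).2
  refine ⟨_, y, finrank_mf_Gamma0_twelve N hn, ?_, hy2⟩
  rw [Fintype.linearIndependent_iff] at hh2 ⊢
  intro a ha i
  have h1 := congrArg (emb N ι) ha
  rw [map_sum, map_zero] at h1
  have hq : ∀ i, QG (h i) := fun i => (hh1 i).1.qg (MFLib.T_mem_Gamma0 N)
  have h2 : ∑ i, emb N ι (a i • y i) = qL (∑ i, ι (a i) • h i) * deltaInvC ℂ ^ n := by
    rw [qL_sum fun i _ => (hq i).smul _, Finset.sum_mul]
    refine Finset.sum_congr rfl fun i _ => ?_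
    rw [Algebra.smul_def, map_mul, emb_const, hy1, qL_smul _ (hq i)]
    ring
  rw [h2] at h1
  have hδ0 : deltaInvC ℂ ≠ 0 := fun h => by
    have := deltaC_mul_inv ℂ
    rw [h, mul_zero] at this
    exact zero_ne_one this
  have h3 := (mul_eq_zero.mp h1).resolve_right (pow_ne_zero _ hδ0)
  rw [← qL_zero, qL_inj (QG.sum fun i _ => (hq i).smul _) QG.zero] at h3
  have h4 := hh2 (fun i => ι (a i)) h3 i
  exact (map_eq_zero ι).mp h4

include ι in
/-- in terms of Riemann–Roch spaces -/
theorem exists_family_riemannRoch {n : ℕ} (hn : 1 ≤ n) (D : Divisor K (FK K N))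
    (hD : ∀ v, D v = n * max 0 (-v.ord (jK K N))) :
    ∃ (m : ℕ) (y : Fin m → FK K N), (m : ℚ) = n * dedekindPsi N + 1 - genusFormula N ∧
      LinearIndependent K y ∧ ∀ i, y i ∈ riemannRochSpace D := by
  obtain ⟨m, y, hm, hy1, hy2⟩ := exists_family N ι hn
  refine ⟨m, y, hm, hy1, fun i v => (hy2 i v).trans ?_⟩
  rw [hD v]
  rcases eq_or_ne (jK K N) 0 with h0 | h0
  · rw [h0]
    simp
  · rw [v.adicValuation_eq_exp_neg_ord h0]
    rcases le_total 0 (-v.ord (jK K N)) with h | h
    · rw [max_eq_right h, max_eq_right (by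
        rw [← WithZero.exp_zero, WithZero.exp_le_exp]; exact h), ← WithZero.exp_nsmul, nsmul_eq_mul]
    · rw [max_eq_left h, mul_zero, max_eq_left (by
        rw [← WithZero.exp_zero, WithZero.exp_le_exp]; exact h)]
      simp

end family

end

end Fermat.Agent.GenusRR
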