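import Fermat.Agent.MFLib.Cusp
import Fermat.Agent.MFLib.IntStruct
import Fermat.Agent.JFun.LevelOne
import Fermat.Agent.JFun.QExp
import Fermat.Agent.Dim.Weight12
import Fermat.Agent.ModPoly.Main
import Fermat.Agent.X0Genus.Base

/-! # Rational decompositions of modular forms on `Γ₀(N)` over level one. -/

set_option autoImplicit false

open UpperHalfPlane ModularForm Complex Filter Topology Matrix.SpecialLinearGroup Finset
open scoped MatrixGroups Manifold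

namespace Fermat.Agent.GenusRR

noncomputable section

open Fermat.Agent.MFLib

local notation "Δ" => ModularForm.discriminant

/-- rational descent of the level one coefficients of an identity. -/
lemma exists_rat_coords {r : ℕ} {w : ℕ → ℤ} {f : ℍ → ℂ} (hf : QG f) (hr : IsRat (qe f))
    {g : ℕ → ℍ → ℂ} (hg : ∀ j, QG (g j)) (hgr : ∀ j, IsRat (qe (g j)))
    (C : ℕ → ℍ → ℂ) (hC : ∀ j ∈ range r, IsMF ⊤ (w j) (C j))
    (h : f = ∑ j ∈ range r, g j * C j) :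
    ∃ C' : ℕ → ℍ → ℂ, (∀ j ∈ range r, IsMF ⊤ (w j) (C' j) ∧ IsRat (qe (C' j)) ∧
      (IsRat (qe (C j)) → C' j = C j)) ∧ f = ∑ j ∈ range r, g j * C' j := by
  classical
  obtain ⟨lam, hl1, hl2⟩ := exists_retraction
  have hex : ∀ j, ∃ c : ℍ → ℂ, j ∈ range r → IsMF ⊤ (w j) c ∧ qe c = mapL lam (qe (C j)) := by
    intro j
    by_cases hj : j ∈ range r
    · obtain ⟨c, hc1, hc2⟩ := exists_mapL_levelOne lam _ _ (hC j hj)
      exact ⟨c, fun _ => ⟨hc1, hc2⟩⟩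
    · exact ⟨0, fun h => absurd h hj⟩
  choose C' hC' using hex
  have hmr : ∀ p : PowerSeries ℂ, IsRat (mapL lam p) := fun p n => by
    rw [coeff_mapL]; exact hl1 _
  refine ⟨C', fun j hj => ⟨(hC' j hj).1, ?_, fun hrat => ?_⟩, ?_⟩
  · rw [(hC' j hj).2]; exact hmr _
  · rw [← (hC' j hj).1.qg_top.qe_inj (hC j hj).qg_top, (hC' j hj).2,
      ← isRat_iff_mapL lam hl1 hl2]
    exact hrat
  · have hq1 : QG (∑ j ∈ range r, g j * C' j) :=
      QG.sum fun j hj => (hg j).mul (hC' j hj).1.qg_top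
    rw [← hf.qe_inj hq1, QG.qe_sum fun j hj => (hg j).mul (hC' j hj).1.qg_top,
      ← (isRat_iff_mapL lam hl1 hl2 _).mp hr]
    conv_lhs => rw [h]
    rw [QG.qe_sum fun j hj => (hg j).mul (hC j hj).qg_top, mapL_sum]
    refine Finset.sum_congr rfl fun j hj => ?_
    rw [(hg j).qe_mul (hC j hj).qg_top, (hg j).qe_mul (hC' j hj).1.qg_top,
      mapL_mul_of_isRat _ (hgr j), (hC' j hj).2]

variable (N : ℕ) [NeZero N]

local notation "Γ₀" => CongruenceSubgroup.Gamma0 N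

lemma lagrange_rat {n : ℕ} {f : ℍ → ℂ} (hf : IsMF Γ₀ (12 * n) f) (hr : IsRat (qe f)) :
    ∃ C : ℕ → ℍ → ℂ, (∀ j ∈ range (idx Γ₀),
      IsMF ⊤ (12 * ((n + (idx Γ₀ - 1 - j) : ℕ) : ℤ)) (C j) ∧ IsRat (qe (C j))) ∧
      f * diffl Γ₀ 12 (xN N) = ∑ j ∈ range (idx Γ₀), xN N ^ j * C j := by
  have hx := isMF_xN N
  have hT := MFLib.T_mem_Gamma0 N
  have hxq : QG (xN N) := hx.qg hT
  have hinj := conj_xN_injective N
  have hrat := isRat_qe_xN N
  have hD := isMF_diffl hx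
  obtain ⟨C', h1, h2⟩ := exists_rat_coords (r := idx Γ₀)
    (w := fun j => (12 * ((n + (idx Γ₀ - 1 - j) : ℕ) : ℤ)))
    (f := f * diffl Γ₀ 12 (xN N)) ((hf.qg hT).mul (hD.qg hT)) (by
      rw [(hf.qg hT).qe_mul (hD.qg hT)]
      exact hr.mul (isRat_diffl hx hT hinj hrat))
    (g := fun j => xN N ^ j) (fun j => hxq.pow j) (fun j => by
      rw [hxq.qe_pow]; exact hrat.pow j)
    (fun j => ∑ i ∈ Icc (j + 1) (idx Γ₀), cpf Γ₀ 12 (xN N) i *
        tr Γ₀ (12 * n + (i - (j + 1) : ℕ) * 12) (f * xN N ^ (i - (j + 1)))) (by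
      intro j hj
      rw [Finset.mem_range] at hj
      refine IsMF.sum fun i hi => ?_
      rw [Finset.mem_Icc] at hi
      refine ((isMF_cpf hx i).mul (isMF_tr (hf.mul (hx.pow (i - (j + 1)))))).congr_weight ?_
      have e1 : ((idx Γ₀ - i : ℕ) : ℤ) = idx Γ₀ - i := by rw [Nat.cast_sub hi.2]
      have e2 : ((i - (j + 1) : ℕ) : ℤ) = i - (j + 1) := by
        rw [Nat.cast_sub hi.1]; push_cast; ring
      have e3 : ((n + (idx Γ₀ - 1 - j) : ℕ) : ℤ) = n + (idx Γ₀ - 1 - j) := by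
        rw [Nat.cast_add, Nat.cast_sub (by omega), Nat.cast_sub (by omega)]
        push_cast; ring
      rw [e1, e2, e3]
      ring)
    (lagrange_form hf hx)
  exact ⟨C', fun j hj => ⟨(h1 j hj).1, (h1 j hj).2.1⟩, h2⟩

lemma cpf_xN {i : ℕ} (hi : i ≤ idx Γ₀) :
    IsMF ⊤ (12 * ((idx Γ₀ - i : ℕ) : ℤ)) (cpf Γ₀ 12 (xN N) i) ∧
      IsRat (qe (cpf Γ₀ 12 (xN N) i)) :=
  ⟨(isMF_cpf (isMF_xN N) i).congr_weight (by ring), isRat_cpf (isMF_xN N) (MFLib.T_mem_Gamma0 N)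
    (conj_xN_injective N) (isRat_qe_xN N) hi⟩

lemma relation_rat {n : ℕ} {f : ℍ → ℂ} (hf : IsMF Γ₀ (12 * n) f) (hr : IsRat (qe f)) :
    ∃ C : ℕ → ℍ → ℂ, (∀ k ∈ range (idx Γ₀ + 1),
      IsMF ⊤ (12 * ((n * (idx Γ₀ - k) : ℕ) : ℤ)) (C k) ∧ IsRat (qe (C k))) ∧
      C (idx Γ₀) = 1 ∧ ∑ k ∈ range (idx Γ₀ + 1), f ^ k * C k = 0 := by
  have hT := MFLib.T_mem_Gamma0 N
  have hfq : QG f := hf.qg hT
  obtain ⟨C', h1, h2⟩ := exists_rat_coords (r := idx Γ₀ + 1)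
    (w := fun k => (12 * ((n * (idx Γ₀ - k) : ℕ) : ℤ)))
    (f := 0) (IsMF.zero (k := 0) (Γ := ⊤)).qg_top (by rw [qe, qExpansion_zero]; exact IsRat.zero)
    (g := fun j => f ^ j) (fun j => hfq.pow j) (fun j => by
      rw [hfq.qe_pow]; exact hr.pow j)
    (fun k => cpf Γ₀ (12 * n) f k) (by
      intro j hj
      refine (isMF_cpf hf j).congr_weight ?_
      push_cast; ring)
    (by
      rw [← charpoly_identity hf]
      exact Finset.sum_congr rfl fun k _ => by rw [mul_comm])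
  refine ⟨C', fun j hj => ⟨(h1 j hj).1, (h1 j hj).2.1⟩, ?_, h2.symm⟩
  have h3 := (h1 (idx Γ₀) (Finset.mem_range.mpr (Nat.lt_succ_self _))).2.2
  rw [cpf_idx] at h3
  exact h3 (by rw [qe, qExpansion_one]; exact IsRat.one)

end

end Fermat.Agent.GenusRR
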