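import Fermat.Agent.GenusRR.Forms

/-! # Modular forms as elements of the modular function field. -/

set_option autoImplicit false

open UpperHalfPlane ModularForm Complex Filter Topology Matrix.SpecialLinearGroup Finset
open ModularCurve
open scoped MatrixGroups Manifold

namespace Fermat.Agent.GenusRR

noncomputable section

open Fermat.Agent.MFLib Fermat.Agent.ModPoly Fermat.Agent.JFun

local notation "Δ" => ModularForm.discriminant

/-- Laurent series of a form -/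
def qL (f : ℍ → ℂ) : LaurentSeries ℂ := HahnSeries.ofPowerSeries ℤ ℂ (qe f)

variable {f g : ℍ → ℂ}

lemma qL_mul (hf : QG f) (hg : QG g) : qL (f * g) = qL f * qL g := by
  rw [qL, hf.qe_mul hg, map_mul]; rfl

lemma qL_pow (hf : QG f) (n : ℕ) : qL (f ^ n) = qL f ^ n := by
  rw [qL, hf.qe_pow, map_pow]; rfl

lemma qL_sum {ι : Type*} {s : Finset ι} {F : ι → ℍ → ℂ} (h : ∀ i ∈ s, QG (F i)) :
    qL (∑ i ∈ s, F i) = ∑ i ∈ s, qL (F i) := by
  rw [qL, QG.qe_sum h, map_sum]; rfl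

lemma qL_smul (c : ℂ) (hf : QG f) : qL (c • f) = HahnSeries.C c * qL f := by
  rw [qL, hf.qe_smul, PowerSeries.smul_eq_C_mul, map_mul, HahnSeries.ofPowerSeries_C]; rfl

lemma qL_one : qL 1 = 1 := by
  rw [qL, qe, qExpansion_one, map_one]

lemma qL_zero : qL 0 = 0 := by
  rw [qL, qe, qExpansion_zero, map_zero]

lemma qL_inj (hf : QG f) (hg : QG g) : qL f = qL g ↔ f = g := by
  rw [qL, qL, HahnSeries.ofPowerSeries_injective.eq_iff, hf.qe_inj hg]

lemma qL_E4 : qL (⇑E₄) = eisC ℂ := by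
  rw [qL, eisC, qe, JFun.qExpansion_E4]

lemma qL_disc : qL Δ = deltaC ℂ := deltaC_eq_qExpansion.symm

lemma deltaC_ne : deltaC ℂ ≠ 0 := fun h => by
  have := deltaC_mul_inv ℂ
  rw [h, zero_mul] at this
  exact zero_ne_one this

/-- evaluation at `j` of rational polynomials. -/
lemma level_one_poly {m : ℕ} {C : ℍ → ℂ} (hC : IsMF ⊤ (12 * (m : ℤ)) C) (hr : IsRat (qe C)) :
    ∃ P : Polynomial ℚ, P.natDegree ≤ m ∧
      qL C * deltaInvC ℂ ^ m = Polynomial.aeval (jqModC ℂ) (P.map (algebraMap ℚ ℂ)) := by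
  classical
  have hΔ0 := discriminant_ne_zero
  have hslash : ∀ (γ : SL(2, ℤ)) (z : ℍ), C (γ • z) = denom γ z ^ (12 * m) * C z := by
    intro γ z
    have h1 := congrFun (hC.slash γ (Subgroup.mem_top _)) z
    rw [SL_slash_apply] at h1
    rw [← h1, zpow_neg]
    have h2 : denom γ z ≠ 0 := denom_ne_zero _ _
    have h3 : denom γ z ^ (12 * (m : ℤ)) = denom γ z ^ (12 * m) := by norm_cast
    rw [h3]
    field_simp
  obtain ⟨P', hP1, hP2, hP3⟩ := exists_poly_jfun (algebraMap ℚ ℂ).range m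
    (fun z => C z / Δ z ^ m)
    (hC.holo.div (isMF_disc.holo.pow m) fun z => pow_ne_zero _ (hΔ0 z))
    (by
      intro γ z
      rw [hslash, Fermat.Agent.Dim.Frame.disc_smul]
      have h2 : denom γ z ≠ 0 := denom_ne_zero _ _
      have := hΔ0 z
      rw [mul_pow, ← pow_mul]
      field_simp)
    (by
      have : (fun z => C z / Δ z ^ m * Δ z ^ m) = C := by
        ext z
        exact div_mul_cancel₀ _ (pow_ne_zero _ (hΔ0 z))
      rw [this]
      exact hC.toHB.bdd_self)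
    (by
      have : (fun z => C z / Δ z ^ m * Δ z ^ m) = C := by
        ext z
        exact div_mul_cancel₀ _ (pow_ne_zero _ (hΔ0 z))
      rw [this, mem_psIn]
      intro n
      obtain ⟨r, hr'⟩ := hr n
      exact ⟨r, by rw [eq_ratCast]; exact hr'.symm⟩)
  obtain ⟨P, hP⟩ : ∃ P : Polynomial ℚ, P.map (algebraMap ℚ ℂ) = P' := by
    rw [← Polynomial.mem_lifts, Polynomial.lifts_iff_coeff_lifts]
    intro n
    exact hP1 n
  have hdeg : P.natDegree ≤ m := by
    rw [← hP, Polynomial.natDegree_map] at hP2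
    exact hP2
  refine ⟨P, hdeg, ?_⟩
  -- express `C` as a polynomial in `E₄³`, `Δ`
  have hE : QG (⇑E₄) := qg_E4
  have hD : QG Δ := isMF_disc.qg_top
  have hCe : C = ∑ k ∈ range (m + 1), (P'.coeff k) • ((⇑E₄) ^ (3 * k) * Δ ^ (m - k)) := by
    ext z
    have h1 := hP3 z
    rw [div_eq_iff (pow_ne_zero _ (hΔ0 z)), Polynomial.eval_eq_sum_range' (n := m + 1)
      (Nat.lt_succ_of_le hP2), Finset.sum_mul] at h1
    rw [h1, Finset.sum_apply]
    refine Finset.sum_congr rfl fun k hk => ?_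
    simp only [Pi.smul_apply, Pi.mul_apply, Pi.pow_apply, smul_eq_mul, jfun]
    have hkm : k ≤ m := Nat.lt_succ_iff.mp (Finset.mem_range.mp hk)
    have h2 : Δ z ^ m = Δ z ^ k * Δ z ^ (m - k) := by rw [← pow_add]; congr 1; omega
    have := hΔ0 z
    rw [h2, div_pow, ← pow_mul]
    field_simp
  have h3 : qL C = ∑ k ∈ range (m + 1), HahnSeries.C (P'.coeff k) *
      (eisC ℂ ^ (3 * k) * deltaC ℂ ^ (m - k)) := by
    conv_lhs => rw [hCe]
    rw [qL_sum fun k _ => ((hE.pow _).mul (hD.pow _)).smul _]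
    refine Finset.sum_congr rfl fun k _ => ?_
    rw [qL_smul _ ((hE.pow _).mul (hD.pow _)), qL_mul (hE.pow _) (hD.pow _), qL_pow hE, qL_pow hD,
      qL_E4, qL_disc]
  rw [h3, hP, Polynomial.aeval_eq_sum_range' (n := m + 1) (Nat.lt_succ_of_le hP2), Finset.sum_mul]
  refine Finset.sum_congr rfl fun k hk => ?_
  have hkm : k ≤ m := Nat.lt_succ_iff.mp (Finset.mem_range.mp hk)
  have h4 : eisC ℂ ^ (3 * k) = (jqModC ℂ * deltaC ℂ) ^ k := by
    rw [pow_mul, jqModC_mul_delta]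
  have h5 : deltaC ℂ ^ k * deltaC ℂ ^ (m - k) = deltaC ℂ ^ m := by
    rw [← pow_add]; congr 1; omega
  have h6 : deltaC ℂ ^ m * deltaInvC ℂ ^ m = 1 := by
    rw [← mul_pow, deltaC_mul_inv, one_pow]
  rw [h4, Algebra.smul_def]
  have h7 : (algebraMap ℂ (LaurentSeries ℂ)) (P'.coeff k) = HahnSeries.C (P'.coeff k) := by
    rw [algebraMap_laurentSeries_eq_single]; rfl
  rw [h7]
  calc HahnSeries.C (P'.coeff k) * ((jqModC ℂ * deltaC ℂ) ^ k * deltaC ℂ ^ (m - k)) *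
      deltaInvC ℂ ^ m = HahnSeries.C (P'.coeff k) * jqModC ℂ ^ k *
        ((deltaC ℂ ^ k * deltaC ℂ ^ (m - k)) * deltaInvC ℂ ^ m) := by ring
    _ = HahnSeries.C (P'.coeff k) * jqModC ℂ ^ k := by rw [h5, h6, mul_one]

variable (N : ℕ) [NeZero N]

local notation "Γ₀" => CongruenceSubgroup.Gamma0 N

lemma qL_xN : qL (xN N) = HahnSeries.C ((N : ℂ) ^ 11) * qExpand ℂ N (deltaC ℂ) := by
  ext k
  rw [HahnSeries.C_mul_eq_smul, HahnSeries.coeff_smul, smul_eq_mul]
  rcases lt_or_ge k 0 with hk | hk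
  · have h1 : (qL (xN N)).coeff k = 0 := ofPowerSeries_coeff_of_neg _ hk
    rw [h1]
    by_cases hd : (N : ℤ) ∣ k
    · obtain ⟨m, rfl⟩ := hd
      rw [qExpand_coeff_mul]
      have hm : m < 0 := by
        by_contra hm
        push Not at hm
        have : (0 : ℤ) ≤ N * m := mul_nonneg (by positivity) hm
        omega
      rw [← qL_disc, qL, ofPowerSeries_coeff_of_neg _ hm, mul_zero]
    · rw [qExpand_coeff_of_not_dvd _ _ hd, mul_zero]
  · obtain ⟨n, rfl⟩ := Int.eq_ofNat_of_zero_le hk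
    have h1 : (qL (xN N)).coeff (n : ℤ) = (qe (xN N)).coeff n := by
      rw [qL, HahnSeries.ofPowerSeries_apply_coeff]
    rw [h1, coeff_qe_xN]
    by_cases hd : N ∣ n
    · obtain ⟨m, rfl⟩ := hd
      rw [if_pos (Dvd.intro _ rfl), Nat.mul_div_cancel_left _ (NeZero.pos N)]
      have : (((N * m : ℕ) : ℤ)) = (N : ℤ) * (m : ℤ) := by push_cast; ring
      rw [this, qExpand_coeff_mul, ← qL_disc, qL, HahnSeries.ofPowerSeries_apply_coeff]
    · rw [if_neg hd, qExpand_coeff_of_not_dvd _ _ (by exact_mod_cast hd), mul_zero]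

section lift

variable {K : Type*} [Field K] [Algebra ℚ K] [IsAlgClosed K] (ι : K →+* ℂ)

/-- the modular function field over `K` -/
abbrev FK (K : Type*) [Field K] [Algebra ℚ K] (N : ℕ) : IntermediateField K (LaurentSeries K) :=
  laurentBaseChange K (modularFunctionFieldFull N)

/-- its image in `ℂ((q))` -/
def SF : Subfield (LaurentSeries ℂ) := (FK K N).toSubfield.map (coeffMap ι)

variable {N ι}

lemma mem_SF {z : LaurentSeries ℂ} : z ∈ SF N ι ↔ ∃ y : FK K N, coeffMap ι (y : LaurentSeries K) = z := by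
  constructor
  · rintro ⟨y, hy, rfl⟩
    exact ⟨⟨y, hy⟩, rfl⟩
  · rintro ⟨y, rfl⟩
    exact ⟨y, y.2, rfl⟩

variable (N ι)

lemma const_mem_SF (r : ℚ) : HahnSeries.C (r : ℂ) ∈ SF N ι := by
  rw [mem_SF]
  refine ⟨algebraMap K _ (algebraMap ℚ K r), ?_⟩
  change coeffMap ι (algebraMap K (LaurentSeries K) (algebraMap ℚ K r)) = _
  rw [algebraMap_laurentSeries_eq_single, coeffMap_single]
  have : ι (algebraMap ℚ K r) = (r : ℂ) := by
    rw [← RingHom.comp_apply, eq_ratCast]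
  rw [this]
  rfl

lemma j_mem_SF : jqModC ℂ ∈ SF N ι := by
  rw [mem_SF]
  refine ⟨X0Genus.jd K N 1 (one_dvd N), ?_⟩
  change coeffMap ι (qExpand K 1 (jqModC K)) = _
  rw [coeffMap_qExpand, coeffMap_jqModC, qExpand_one_apply]

lemma poly_mem_SF (P : Polynomial ℚ) :
    Polynomial.aeval (jqModC ℂ) (P.map (algebraMap ℚ ℂ)) ∈ SF N ι := by
  rw [Polynomial.aeval_eq_sum_range]
  refine sum_mem fun k _ => ?_
  rw [Algebra.smul_def, algebraMap_laurentSeries_eq_single, Polynomial.coeff_map, eq_ratCast]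
  exact mul_mem (const_mem_SF N ι _) (pow_mem (j_mem_SF N ι) k)

omit [NeZero N] in
lemma rm_mem_FK [NeZero N] : rm K (pn N) ∈ FK K N := by
  have : CharZero K := algebraRat.charZero K
  have h1 : rm K (pn N) ∈ FF K N := rm_mem (by exact_mod_cast NeZero.ne N) (pn N) (dvd_refl N)
  have h2 : FF K N ≤ FK K N := by
    rw [FF, modularFunctionFieldFullC, IntermediateField.adjoin_le_iff]
    rintro x ⟨d, hd0, hd, rfl⟩
    haveI := hd0
    exact X0Genus.jd_mem N d hd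
  exact h2 h1

lemma x_mem_SF : qL (xN N) * deltaInvC ℂ ∈ SF N ι := by
  have h1 : coeffMap ι (rm K (pn N)) = qExpand ℂ N (deltaC ℂ) * deltaInvC ℂ := by
    have h2 : (Dc 1 (pn N) : LaurentSeries K) = qExpand K N (deltaC K) := by
      rw [Dc, qExpand_eq_Sb N (pn N) rfl]
    have h3 : (Dc 1 1 : LaurentSeries K) = deltaC K := by
      rw [Dc, ← qExpand_eq_Sb 1 1 rfl, qExpand_one_apply]
    rw [rm, map_mul, map_inv₀, h2, h3, coeffMap_qExpand, coeffMap_deltaC]
    congr 1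
    rw [inv_eq_iff_eq_inv, eq_comm]
    exact inv_eq_of_mul_eq_one_left (deltaC_mul_inv ℂ)
  have h4 : qExpand ℂ N (deltaC ℂ) * deltaInvC ℂ ∈ SF N ι := by
    rw [mem_SF]
    exact ⟨⟨_, rm_mem_FK N⟩, h1⟩
  rw [qL_xN, mul_assoc]
  refine mul_mem ?_ h4
  have := const_mem_SF N ι ((N : ℚ) ^ 11)
  simpa using this

theorem form_mem_SF {n : ℕ} {f : ℍ → ℂ} (hf : IsMF Γ₀ (12 * n) f) (hr : IsRat (qe f)) :
    qL f * deltaInvC ℂ ^ n ∈ SF N ι := by
  classical
  obtain ⟨C, hC1, hC2⟩ := lagrange_rat N hf hr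
  have hx := isMF_xN N
  have hT := MFLib.T_mem_Gamma0 N
  have hxq : QG (xN N) := hx.qg hT
  have hfq : QG f := hf.qg hT
  have hDq : QG (diffl Γ₀ 12 (xN N)) := (isMF_diffl hx).qg hT
  have hD0 : diffl Γ₀ 12 (xN N) ≠ 0 := diffl_ne_zero hx (conj_xN_injective N)
  have hμ : 1 ≤ idx Γ₀ := Fintype.card_pos
  set δ := deltaInvC ℂ with hδ
  set ξ := qL (xN N) * δ with hξ
  have hδ0 : δ ≠ 0 := fun h => by
    have := deltaC_mul_inv ℂ
    rw [← hδ, h, mul_zero] at this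
    exact zero_ne_one this
  -- the left hand side
  have hDmem : qL (diffl Γ₀ 12 (xN N)) * δ ^ (idx Γ₀ - 1) ∈ SF N ι := by
    rw [diffl_eq hx, qL_sum fun i _ => ((isMF_cpf hx i).qg_top.mul (hxq.pow _)).smul _,
      Finset.sum_mul]
    refine sum_mem fun i hi => ?_
    have hi' : i ≤ idx Γ₀ := Nat.lt_succ_iff.mp (Finset.mem_range.mp hi)
    rw [qL_smul _ ((isMF_cpf hx i).qg_top.mul (hxq.pow _)), qL_mul (isMF_cpf hx i).qg_top (hxq.pow _),
      qL_pow hxq]
    rcases Nat.eq_zero_or_pos i with h0 | hpos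
    · subst h0
      simp only [Nat.cast_zero, map_zero, zero_mul]
      exact zero_mem _
    · obtain ⟨h1, h2⟩ := cpf_xN N hi'
      obtain ⟨P, -, hP⟩ := level_one_poly h1 h2
      have h3 : δ ^ (idx Γ₀ - 1) = δ ^ (idx Γ₀ - i) * δ ^ (i - 1) := by
        rw [← pow_add]; congr 1; omega
      have h4 : HahnSeries.C (i : ℂ) * (qL (cpf Γ₀ 12 (xN N) i) * qL (xN N) ^ (i - 1)) *
          δ ^ (idx Γ₀ - 1) = HahnSeries.C (i : ℂ) * ((qL (cpf Γ₀ 12 (xN N) i) * δ ^ (idx Γ₀ - i)) *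
            ξ ^ (i - 1)) := by
        rw [h3, hξ]; ring
      rw [h4, hP]
      refine mul_mem ?_ (mul_mem (poly_mem_SF N ι P) (pow_mem (x_mem_SF N ι) _))
      have := const_mem_SF N ι (i : ℚ)
      simpa using this
  have hnum : ∑ j ∈ range (idx Γ₀), qL (xN N ^ j * C j) * δ ^ (n + (idx Γ₀ - 1)) ∈ SF N ι := by
    refine sum_mem fun j hj => ?_
    obtain ⟨h1, h2⟩ := hC1 j hj
    obtain ⟨P, -, hP⟩ := level_one_poly h1 h2
    rw [Finset.mem_range] at hj
    rw [qL_mul (hxq.pow j) h1.qg_top, qL_pow hxq]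
    have h3 : δ ^ (n + (idx Γ₀ - 1)) = δ ^ (n + (idx Γ₀ - 1 - j)) * δ ^ j := by
      rw [← pow_add]; congr 1; omega
    have h4 : qL (xN N) ^ j * qL (C j) * δ ^ (n + (idx Γ₀ - 1)) =
        ξ ^ j * (qL (C j) * δ ^ (n + (idx Γ₀ - 1 - j))) := by
      rw [h3, hξ]; ring
    rw [h4, hP]
    exact mul_mem (pow_mem (x_mem_SF N ι) _) (poly_mem_SF N ι P)
  have hkey : (qL f * δ ^ n) * (qL (diffl Γ₀ 12 (xN N)) * δ ^ (idx Γ₀ - 1)) =
      ∑ j ∈ range (idx Γ₀), qL (xN N ^ j * C j) * δ ^ (n + (idx Γ₀ - 1)) := by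
    rw [← Finset.sum_mul, ← qL_sum fun j hj => (hxq.pow j).mul (hC1 j hj).1.qg_top, ← hC2,
      qL_mul hfq hDq, pow_add]
    ring
  have hne : qL (diffl Γ₀ 12 (xN N)) * δ ^ (idx Γ₀ - 1) ≠ 0 := by
    refine mul_ne_zero ?_ (pow_ne_zero _ hδ0)
    intro h
    rw [← qL_zero, qL_inj hDq QG.zero] at h
    exact hD0 h
  rw [eq_div_of_mul_eq hne hkey]
  exact div_mem hnum hDmem

end lift

end

end Fermat.Agent.GenusRR
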